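import Mathlib
import Fermat.Prelude.Def_EllipticCurve_FrobeniusTrace

/-!
# Existence of places and Frobenius elements in `Gal(ℚ̄/ℚ)`

For every prime `q` there is a valuation subring of `AlgebraicClosure ℚ` lying over `q`
and for every such valuation subring there is a Frobenius element.
-/

set_option autoImplicit false
set_option linter.style.haveILetI false

open NumberField Polynomial
open scoped Pointwise

namespace Fermat.Agent.Lib.Frobenius

instance instIsAlgClosureRat : IsAlgClosure ℚ (AlgebraicClosure ℚ) :=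
  AlgebraicClosure.instIsAlgClosure ℚ

instance instIsFractionRingRingOfIntegers :
    IsFractionRing (𝓞 (AlgebraicClosure ℚ)) (AlgebraicClosure ℚ) := by
  have : Algebra.IsAlgebraic ℤ (AlgebraicClosure ℚ) := by
    have : Algebra.IsAlgebraic ℚ (AlgebraicClosure ℚ) := inferInstance
    exact (IsFractionRing.comap_isAlgebraic_iff (A := ℤ) (K := ℚ)
      (C := AlgebraicClosure ℚ)).mpr this
  exact integralClosure.isFractionRing_of_algebraic (A := ℤ) (L := AlgebraicClosure ℚ)
    (fun x hx => by simpa using hx)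

instance instIsGaloisGroupInt :
    IsGaloisGroup (AlgebraicClosure ℚ ≃ₐ[ℚ] AlgebraicClosure ℚ) ℤ (𝓞 (AlgebraicClosure ℚ)) :=
  IsGaloisGroup.of_isFractionRing _ ℤ (𝓞 (AlgebraicClosure ℚ)) ℚ (AlgebraicClosure ℚ)

section General

variable {L : Type*} [Field L]

theorem mem_of_isIntegral_int (A : ValuationSubring L) {x : L} (hx : IsIntegral ℤ x) : x ∈ A := by
  have h : IsIntegral A x := hx.tower_top
  obtain ⟨y, hy⟩ := (IsIntegrallyClosed.isIntegral_iff (R := A) (K := L)).mp h
  rw [← hy]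
  exact y.2

theorem add_mem_nonunits (A : ValuationSubring L) {x y : L} (hx : x ∈ A.nonunits)
    (hy : y ∈ A.nonunits) : x + y ∈ A.nonunits := by
  rw [ValuationSubring.mem_nonunits_iff] at *
  exact lt_of_le_of_lt (A.valuation.map_add x y) (max_lt hx hy)

theorem mul_mem_nonunits (A : ValuationSubring L) {x y : L} (hx : x ∈ A)
    (hy : y ∈ A.nonunits) : x * y ∈ A.nonunits := by
  rw [ValuationSubring.mem_nonunits_iff] at *
  rw [map_mul]
  exact (mul_le_of_le_one_left' ((A.valuation_le_one_iff x).mpr hx)).trans_lt hy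

theorem neg_mem_nonunits (A : ValuationSubring L) {x : L} (hx : x ∈ A.nonunits) :
    -x ∈ A.nonunits := by
  rw [ValuationSubring.mem_nonunits_iff] at *
  rwa [Valuation.map_neg]

theorem zero_mem_nonunits (A : ValuationSubring L) : (0 : L) ∈ A.nonunits := by
  rw [ValuationSubring.mem_nonunits_iff, map_zero]
  exact zero_lt_one

/-- Kaplansky's lemma. -/
theorem exists_mul_eq_of_aeval_eq_zero (A : ValuationSubring L) (u : L) :
    ∀ (n : ℕ) (f : (integralClosure ℤ L)[X]), f.natDegree ≤ n → aeval u f = 0 →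
      (∃ i, ((f.coeff i : integralClosure ℤ L) : L) ∉ A.nonunits) →
      ∃ b s : integralClosure ℤ L, (s : L) * u = b ∧
        ((b : L) ∉ A.nonunits ∨ (s : L) ∉ A.nonunits) := by
  intro n
  induction n with
  | zero =>
    intro f hf h0 ⟨i, hi⟩
    exfalso
    rw [Polynomial.eq_C_of_natDegree_le_zero hf] at h0
    rw [aeval_C] at h0
    have h00 : f.coeff 0 = 0 := by
      apply Subtype.ext
      simpa using h0
    apply hi
    rw [Polynomial.eq_C_of_natDegree_le_zero hf, h00]
    simp [zero_mem_nonunits A]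
  | succ n ih =>
    intro f hf h0 ⟨i, hi⟩
    by_cases hdeg : f.natDegree ≤ n
    · exact ih f hdeg h0 ⟨i, hi⟩
    have hdeg' : f.natDegree = n + 1 := by omega
    have hint : IsIntegral (integralClosure ℤ L) (f.leadingCoeff • u) :=
      isIntegral_leadingCoeff_smul f u h0
    have hint' : IsIntegral ℤ (f.leadingCoeff • u) := isIntegral_trans _ hint
    set c := f.leadingCoeff with hc
    let b₀ : integralClosure ℤ L := ⟨c • u, hint'⟩
    have hb₀ : (c : L) * u = b₀ := rfl
    by_cases hc1 : (c : L) ∉ A.nonunits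
    · exact ⟨b₀, c, hb₀, Or.inr hc1⟩
    by_cases hb1 : (b₀ : L) ∉ A.nonunits
    · exact ⟨b₀, c, hb₀, Or.inl hb1⟩
    rw [not_not] at hc1 hb1
    -- reduce the degree
    let g : (integralClosure ℤ L)[X] := f.eraseLead + C b₀ * X ^ n
    have hg_deg : g.natDegree ≤ n := by
      refine (natDegree_add_le _ _).trans (max_le ?_ ?_)
      · have := eraseLead_natDegree_le f
        omega
      · exact natDegree_C_mul_X_pow_le _ _
    have hg0 : aeval u g = 0 := by
      have h1 : aeval u f = aeval u f.eraseLead + (c : L) * u ^ (n + 1) := by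
        conv_lhs => rw [← eraseLead_add_C_mul_X_pow f]
        rw [map_add, map_mul, aeval_C, map_pow, aeval_X, hdeg']
        rfl
      have h2 : aeval u g = aeval u f.eraseLead + (b₀ : L) * u ^ n := by
        simp only [g, map_add, map_mul, aeval_C, map_pow, aeval_X]
        rfl
      rw [h2, ← hb₀]
      rw [h0] at h1
      rw [h1]
      ring
    have hi_ne : i ≠ n + 1 := by
      rintro rfl
      apply hi
      have : f.coeff (n + 1) = c := by rw [hc, leadingCoeff, hdeg']
      rw [this]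
      exact hc1
    refine ih g hg_deg hg0 ⟨i, ?_⟩
    have hcoeff : g.coeff i = f.coeff i + (if i = n then b₀ else 0) := by
      simp only [g, coeff_add, coeff_C_mul, coeff_X_pow]
      rw [eraseLead_coeff_of_ne _ (by rw [hdeg']; exact hi_ne)]
      split_ifs <;> simp
    rw [hcoeff]
    intro hmem
    apply hi
    by_cases hin : i = n
    · rw [if_pos hin] at hmem
      have := add_mem_nonunits A hmem (neg_mem_nonunits A hb1)
      simpa using this
    · rw [if_neg hin] at hmem
      simpa using hmem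

theorem intCast_not_mem_nonunits {q : ℕ} (hq : q.Prime) (A : ValuationSubring L)
    (hA : (q : L) ∈ A.nonunits) {c : ℤ} (hc : ¬ (q : ℤ) ∣ c) : (c : L) ∉ A.nonunits := by
  intro hmem
  have hcop : IsCoprime (q : ℤ) c :=
    (Prime.coprime_iff_not_dvd (Nat.prime_iff_prime_int.mp hq)).mpr hc
  obtain ⟨x, y, hxy⟩ := hcop
  have h1 : (x : L) * (q : L) + (y : L) * (c : L) = 1 := by exact_mod_cast congrArg (Int.cast : ℤ → L) hxy
  have h2 : (1 : L) ∈ A.nonunits := by
    rw [← h1]
    exact add_mem_nonunits A (mul_mem_nonunits A (intCast_mem A x) hA)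
      (mul_mem_nonunits A (intCast_mem A y) hmem)
  rw [ValuationSubring.mem_nonunits_iff, map_one] at h2
  exact lt_irrefl _ h2

theorem exists_mul_eq_of_mem [CharZero L] {q : ℕ} (hq : q.Prime) (A : ValuationSubring L)
    (hA : (q : L) ∈ A.nonunits) {u : L} (halg : IsAlgebraic ℤ u) (hu : u ∈ A) :
    ∃ b s : integralClosure ℤ L, (s : L) * u = b ∧ (s : L) ∉ A.nonunits := by
  obtain ⟨p, hp0, hpu⟩ := halg
  have hprim : p.primPart.IsPrimitive := p.isPrimitive_primPart
  have hpu' : aeval u p.primPart = 0 := aeval_primPart_eq_zero hp0 hpu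
  have hex : ∃ i, ¬ (q : ℤ) ∣ p.primPart.coeff i := by
    by_contra hcon
    push Not at hcon
    have hdvd : C (q : ℤ) ∣ p.primPart := (C_dvd_iff_dvd_coeff _ _).mpr hcon
    have hunit := isPrimitive_iff_isUnit_of_C_dvd.mp hprim _ hdvd
    exact (Nat.prime_iff_prime_int.mp hq).not_isUnit hunit
  obtain ⟨i, hi⟩ := hex
  let f : (integralClosure ℤ L)[X] := p.primPart.map (algebraMap ℤ (integralClosure ℤ L))
  have hf0 : aeval u f = 0 := by
    rw [aeval_map_algebraMap]
    exact hpu'
  have hfi : ((f.coeff i : integralClosure ℤ L) : L) ∉ A.nonunits := by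
    have : ((f.coeff i : integralClosure ℤ L) : L) = ((p.primPart.coeff i : ℤ) : L) := by
      simp [f]
    rw [this]
    exact intCast_not_mem_nonunits hq A hA hi
  obtain ⟨b, s, hbs, h⟩ := exists_mul_eq_of_aeval_eq_zero A u f.natDegree f le_rfl hf0 ⟨i, hfi⟩
  refine ⟨b, s, hbs, ?_⟩
  rcases h with h | h
  · intro hs
    apply h
    rw [← hbs, mul_comm]
    exact mul_mem_nonunits A hu hs
  · exact h

theorem exists_mul_eq_of_mem' [CharZero L] {q : ℕ} (hq : q.Prime) (A : ValuationSubring L)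
    (hA : (q : L) ∈ A.nonunits) {u : L} (halg : IsAlgebraic ℤ u) (hu : u ∈ A) :
    ∃ b s : 𝓞 L, (s : L) * u = b ∧ (s : L) ∉ A.nonunits :=
  exists_mul_eq_of_mem hq A hA halg hu

end General

section Main

local notation "Qb" => AlgebraicClosure ℚ
local notation "GQ" => (AlgebraicClosure ℚ ≃ₐ[ℚ] AlgebraicClosure ℚ)

/-- The inclusion of the ring of all algebraic integers into a valuation subring. -/
noncomputable def incl (A : ValuationSubring Qb) : 𝓞 Qb →+* A where
  toFun x := ⟨(x : Qb), mem_of_isIntegral_int A (RingOfIntegers.isIntegral_coe x)⟩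
  map_one' := rfl
  map_mul' _ _ := rfl
  map_zero' := rfl
  map_add' _ _ := rfl

/-- The centre of a valuation subring on the ring of all algebraic integers. -/
noncomputable def center (A : ValuationSubring Qb) : Ideal (𝓞 Qb) :=
  (IsLocalRing.maximalIdeal A).comap (incl A)

theorem mem_center_iff (A : ValuationSubring Qb) (x : 𝓞 Qb) :
    x ∈ center A ↔ (x : Qb) ∈ A.nonunits := by
  rw [center, Ideal.mem_comap, ← ValuationSubring.coe_mem_nonunits_iff]
  rfl

instance center_isPrime (A : ValuationSubring Qb) : (center A).IsPrime :=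
  Ideal.comap_isPrime _ _

theorem isAlgebraic_int (u : Qb) : IsAlgebraic ℤ u := by
  have : Algebra.IsAlgebraic ℚ (AlgebraicClosure ℚ) := inferInstance
  exact ((IsFractionRing.comap_isAlgebraic_iff (A := ℤ) (K := ℚ)
      (C := AlgebraicClosure ℚ)).mpr this).isAlgebraic u

theorem coe_smul_ringOfIntegers (τ : GQ) (x : 𝓞 Qb) : ((τ • x : 𝓞 Qb) : Qb) = τ (x : Qb) := rfl

theorem map_mem_of_mem_stabilizer {q : ℕ} (hq : q.Prime) (A : ValuationSubring Qb)
    (hA : A.LiesOverPrime q) {τ : GQ} (hτ : τ ∈ MulAction.stabilizer GQ (center A))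
    {u : Qb} (hu : u ∈ A) : τ u ∈ A := by
  obtain ⟨b, s, hbs, hs⟩ := exists_mul_eq_of_mem' hq A hA (isAlgebraic_int u) hu
  have hs' : s ∉ center A := by
    rw [mem_center_iff]; exact hs
  have hτs : (τ • s) ∉ center A := by
    intro h
    apply hs'
    have h2 : τ • s ∈ τ • center A := by
      rw [MulAction.mem_stabilizer_iff.mp hτ]; exact h
    exact (Ideal.smul_mem_pointwise_smul_iff).mp h2
  rw [mem_center_iff, coe_smul_ringOfIntegers] at hτs
  have hτs_mem : τ (s : Qb) ∈ A :=
    mem_of_isIntegral_int A (RingOfIntegers.isIntegral_coe (τ • s))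
  have hτb_mem : τ (b : Qb) ∈ A :=
    mem_of_isIntegral_int A (RingOfIntegers.isIntegral_coe (τ • b))
  have hv1 : A.valuation (τ (s : Qb)) = 1 := by
    rw [ValuationSubring.mem_nonunits_iff, not_lt] at hτs
    exact le_antisymm ((A.valuation_le_one_iff _).mpr hτs_mem) hτs
  have heq : τ (s : Qb) * τ u = τ (b : Qb) := by rw [← map_mul, hbs]
  rw [← A.valuation_le_one_iff]
  have : A.valuation (τ u) = A.valuation (τ (b : Qb)) := by
    rw [← heq, map_mul, hv1, one_mul]
  rw [this]
  exact (A.valuation_le_one_iff _).mpr hτb_mem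

theorem mem_decompositionSubgroup_of_mem_stabilizer {q : ℕ} (hq : q.Prime)
    (A : ValuationSubring Qb) (hA : A.LiesOverPrime q) {τ : GQ}
    (hτ : τ ∈ MulAction.stabilizer GQ (center A)) : τ ∈ A.decompositionSubgroup ℚ := by
  rw [MulAction.mem_stabilizer_iff]
  apply le_antisymm
  · intro x hx
    obtain ⟨y, hy, rfl⟩ := (ValuationSubring.mem_smul_pointwise_iff_exists _ _ _).mp hx
    exact map_mem_of_mem_stabilizer hq A hA hτ hy
  · intro x hx
    rw [ValuationSubring.mem_smul_pointwise_iff_exists]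
    refine ⟨τ⁻¹ x, map_mem_of_mem_stabilizer hq A hA (inv_mem hτ) hx, ?_⟩
    show τ (τ⁻¹ x) = x
    exact AlgEquiv.apply_symm_apply τ x

theorem center_liesOver {q : ℕ} (hq : q.Prime) (A : ValuationSubring Qb)
    (hA : A.LiesOverPrime q) : (center A).LiesOver (Ideal.span {(q : ℤ)}) := by
  constructor
  have hmax : (Ideal.span {(q : ℤ)}).IsMaximal :=
    PrincipalIdealRing.isMaximal_of_irreducible (Nat.prime_iff_prime_int.mp hq).irreducible
  apply hmax.eq_of_le
  · exact (Ideal.IsPrime.under ℤ (center A)).ne_top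
  · rw [Ideal.span_singleton_le_iff_mem, Ideal.under, Ideal.mem_comap, mem_center_iff]
    have : ((algebraMap ℤ (𝓞 Qb) (q : ℤ) : 𝓞 Qb) : Qb) = (q : Qb) := by simp
    rw [this]
    exact hA

theorem exists_stabilizer_frobenius {q : ℕ} (hq : q.Prime) (A : ValuationSubring Qb)
    (hA : A.LiesOverPrime q) :
    ∃ σ ∈ MulAction.stabilizer GQ (center A), ∀ x : 𝓞 Qb, σ • x - x ^ q ∈ center A := by
  let P : Ideal ℤ := Ideal.span {(q : ℤ)}
  let Q : Ideal (𝓞 Qb) := center A
  haveI hPmax : P.IsMaximal :=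
    PrincipalIdealRing.isMaximal_of_irreducible (Nat.prime_iff_prime_int.mp hq).irreducible
  haveI : Q.LiesOver P := center_liesOver hq A hA
  haveI hQmax : Q.IsMaximal := Ideal.IsMaximal.of_liesOver_isMaximal Q P
  letI : TopologicalSpace (𝓞 Qb) := ⊥
  haveI : DiscreteTopology (𝓞 Qb) := ⟨rfl⟩
  haveI : ContinuousSMul GQ (𝓞 Qb) := by
    rw [continuousSMul_iff_stabilizer_isOpen]
    intro x
    have h := stabilizer_isOpen_of_isIntegral (K := ℚ) (L := Qb) (x : Qb)
    convert h using 1
    ext g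
    simp only [SetLike.mem_coe, MulAction.mem_stabilizer_iff]
    constructor
    · intro h; exact congrArg (fun y : 𝓞 Qb => (y : Qb)) h
    · intro h; exact RingOfIntegers.ext h
  letI : Field (ℤ ⧸ P) := Ideal.Quotient.field P
  letI : Field (𝓞 Qb ⧸ Q) := Ideal.Quotient.field Q
  haveI : Fact q.Prime := ⟨hq⟩
  haveI : Finite (ℤ ⧸ P) := by
    haveI : NeZero q := ⟨hq.ne_zero⟩
    exact Finite.of_equiv _ (Int.quotientSpanNatEquivZMod q).symm.toEquiv
  haveI hcharQ : CharP (𝓞 Qb ⧸ Q) q := by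
    rw [CharP.charP_iff_prime_eq_zero hq]
    have : ((q : 𝓞 Qb) : 𝓞 Qb) ∈ Q := by
      rw [mem_center_iff]
      have h3 : (((q : 𝓞 Qb) : 𝓞 Qb) : Qb) = (q : Qb) := by simp
      rw [h3]
      exact hA
    have h2 := Ideal.Quotient.eq_zero_iff_mem.mpr this
    simpa using h2
  haveI : ExpChar (𝓞 Qb ⧸ Q) q := .prime hq
  haveI : Algebra.IsIntegral (ℤ ⧸ P) (𝓞 Qb ⧸ Q) := inferInstance
  haveI : Algebra.IsAlgebraic (ℤ ⧸ P) (𝓞 Qb ⧸ Q) := inferInstance
  haveI : PerfectField (𝓞 Qb ⧸ Q) := Algebra.IsAlgebraic.perfectField (K := ℤ ⧸ P)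
  haveI : PerfectRing (𝓞 Qb ⧸ Q) q := PerfectField.toPerfectRing q
  let l : (𝓞 Qb ⧸ Q) ≃ₐ[ℤ ⧸ P] 𝓞 Qb ⧸ Q :=
    { __ := frobeniusEquiv (𝓞 Qb ⧸ Q) q,
      commutes' := fun r => by
        obtain ⟨n, rfl⟩ := Ideal.Quotient.mk_surjective r
        have : algebraMap (ℤ ⧸ P) (𝓞 Qb ⧸ Q) (Ideal.Quotient.mk P n) = ((n : ℤ) : 𝓞 Qb ⧸ Q) := by
          simp
        show frobenius (𝓞 Qb ⧸ Q) q _ = _
        rw [this, map_intCast] }
  obtain ⟨σ, hσ⟩ := Ideal.Quotient.stabilizerHom_surjective_of_profinite (G := GQ) P Q l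
  refine ⟨σ.1, σ.2, fun x => ?_⟩
  rw [← Ideal.Quotient.eq]
  have := DFunLike.congr_fun hσ (Ideal.Quotient.mk Q x)
  rw [Ideal.Quotient.stabilizerHom_apply] at this
  rw [map_pow]
  exact this

/-- Every valuation subring of `ℚ̄` over a prime `q` admits a Frobenius element. -/
theorem exists_isFrobeniusAt {q : ℕ} (hq : q.Prime) (A : ValuationSubring Qb)
    (hA : A.LiesOverPrime q) : ∃ σ : GQ, A.IsFrobeniusAt σ q := by
  obtain ⟨σ, hσ, hfrob⟩ := exists_stabilizer_frobenius hq A hA
  have hdec := mem_decompositionSubgroup_of_mem_stabilizer hq A hA hσ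
  refine ⟨σ, hdec, fun x => ?_⟩
  obtain ⟨a, rfl⟩ := IsLocalRing.residue_surjective x
  rw [← IsLocalRing.ResidueField.residue_smul]
  obtain ⟨b, s, hbs, hs⟩ := exists_mul_eq_of_mem' hq A hA (isAlgebraic_int (a : Qb)) a.2
  -- the key congruence on integral elements
  have key : ∀ y : 𝓞 Qb, IsLocalRing.residue A ((⟨σ, hdec⟩ : A.decompositionSubgroup ℚ) • incl A y) =
      IsLocalRing.residue A (incl A y) ^ q := by
    intro y
    rw [← map_pow, ← sub_eq_zero, ← map_sub, IsLocalRing.residue_eq_zero_iff,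
      ← ValuationSubring.coe_mem_nonunits_iff]
    have := (mem_center_iff A _).mp (hfrob y)
    exact this
  have hmul : incl A s * a = incl A b := Subtype.ext hbs
  have hs0 : IsLocalRing.residue A (incl A s) ≠ 0 := by
    rw [Ne, IsLocalRing.residue_eq_zero_iff, ← ValuationSubring.coe_mem_nonunits_iff]
    exact hs
  have h1 : IsLocalRing.residue A ((⟨σ, hdec⟩ : A.decompositionSubgroup ℚ) • incl A s) *
      IsLocalRing.residue A ((⟨σ, hdec⟩ : A.decompositionSubgroup ℚ) • a) =
      IsLocalRing.residue A ((⟨σ, hdec⟩ : A.decompositionSubgroup ℚ) • incl A b) := by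
    rw [← map_mul, ← smul_mul', hmul]
  rw [key, key, ← hmul, map_mul, mul_pow] at h1
  exact mul_left_cancel₀ (pow_ne_zero q hs0) h1

/-- Every prime has a place of `ℚ̄` above it. -/
theorem exists_liesOverPrime {q : ℕ} (hq : q.Prime) :
    ∃ A : ValuationSubring Qb, A.LiesOverPrime q := by
  let R : Subring Qb := (Int.castRingHom Qb).range
  let qR : R := ⟨(q : Qb), ⟨(q : ℤ), by simp⟩⟩
  have hI : Ideal.span {qR} ≠ ⊤ := by
    intro htop
    rw [Ideal.span_singleton_eq_top] at htop
    obtain ⟨⟨y, n, hn⟩, hy⟩ := isUnit_iff_exists_inv.mp htop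
    have h1 : (q : Qb) * y = 1 := congrArg Subtype.val hy
    rw [← hn] at h1
    have h2 : ((q : ℤ) * n : ℤ) = 1 := by
      have : (((q : ℤ) * n : ℤ) : Qb) = ((1 : ℤ) : Qb) := by
        push_cast
        simpa using h1
      exact Int.cast_injective this
    have h3 : IsUnit (q : ℤ) := IsUnit.of_mul_eq_one _ h2
    exact (Nat.prime_iff_prime_int.mp hq).not_isUnit h3
  obtain ⟨B, -, hB⟩ := Ideal.image_subset_nonunits_valuationSubring (Ideal.span {qR}) hI
  exact ⟨B, hB ⟨qR, Ideal.subset_span rfl, rfl⟩⟩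

/-- Every prime has a place of `ℚ̄` above it together with a Frobenius element. -/
theorem exists_place_and_frobenius {q : ℕ} (hq : q.Prime) :
    ∃ (A : ValuationSubring Qb) (σ : GQ), A.LiesOverPrime q ∧ A.IsFrobeniusAt σ q := by
  obtain ⟨A, hA⟩ := exists_liesOverPrime hq
  obtain ⟨σ, hσ⟩ := exists_isFrobeniusAt hq A hA
  exact ⟨A, σ, hA, hσ⟩

end Main

end Fermat.Agent.Lib.Frobenius
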