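import Mathlib

set_option autoImplicit false
open scoped MatrixGroups

namespace Fermat.Agent.Lib.Gamma0Index

theorem index_Gamma0_one : (CongruenceSubgroup.Gamma0 1).index = 1 := by
  have : CongruenceSubgroup.Gamma0 1 = ⊤ := by
    ext g
    simp [CongruenceSubgroup.Gamma0_mem, eq_iff_true_of_subsingleton]
  rw [this, Subgroup.index_top]

/-- first column mod 2 -/
def col (g : SL(2, ℤ)) : ZMod 2 × ZMod 2 := ((g 0 0 : ZMod 2), (g 1 0 : ZMod 2))

theorem col_eq_imp (g h : SL(2, ℤ)) (hc : col g = col h) :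
    g⁻¹ * h ∈ CongruenceSubgroup.Gamma0 2 := by
  rw [CongruenceSubgroup.Gamma0_mem]
  have h1 : ((g 0 0 : ℤ) : ZMod 2) = (h 0 0 : ZMod 2) := congrArg Prod.fst hc
  have h2 : ((g 1 0 : ℤ) : ZMod 2) = (h 1 0 : ZMod 2) := congrArg Prod.snd hc
  have : (g⁻¹ * h) 1 0 = - g 1 0 * h 0 0 + g 0 0 * h 1 0 := by
    rw [Matrix.SpecialLinearGroup.coe_mul, Matrix.SpecialLinearGroup.SL2_inv_expl]
    rw [Matrix.mul_apply, Fin.sum_univ_two]
    simp
  rw [this]
  push_cast
  rw [h1, h2]
  ring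

theorem index_Gamma0_two_le : (CongruenceSubgroup.Gamma0 2).index ≤ 5 := by
  classical
  rw [Subgroup.index]
  -- choose representatives
  let φ : (SL(2, ℤ) ⧸ CongruenceSubgroup.Gamma0 2) → ZMod 2 × ZMod 2 :=
    fun x => col x.out
  have hφ : Function.Injective φ := by
    intro x y hxy
    have := col_eq_imp x.out y.out hxy
    have h2 : (QuotientGroup.mk x.out : SL(2, ℤ) ⧸ CongruenceSubgroup.Gamma0 2)
        = QuotientGroup.mk y.out := QuotientGroup.eq.mpr this
    simpa using h2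
  have h := Nat.card_le_card_of_injective φ hφ
  have h4 : Nat.card (ZMod 2 × ZMod 2) = 4 := by
    simp
  omega

end Fermat.Agent.Lib.Gamma0Index
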