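import Fermat.Agent.Lib.PlaceExists

/-!
# Minkowski glue : a normal open subgroup of `Gal(ℚ̄/ℚ)` containing all inertia groups is everything
-/

set_option autoImplicit false
set_option linter.style.haveILetI false
set_option linter.unusedSectionVars false

open NumberField Polynomial
open scoped Pointwise

namespace Fermat.Agent.Lib

open Frobenius

local notation "Qb" => AlgebraicClosure ℚ
local notation "GQ" => (AlgebraicClosure ℚ ≃ₐ[ℚ] AlgebraicClosure ℚ)

/-! ### Step A : a Galois number field with trivial inertia groups is `ℚ` -/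

theorem finrank_eq_one_of_inertia_trivial (K : Type*) [Field K] [NumberField K] [IsGalois ℚ K]
    (h : ∀ (P : Ideal (𝓞 K)) [P.IsPrime], P ≠ ⊥ → ∀ τ ∈ P.inertia Gal(K/ℚ), τ = 1) :
    Module.finrank ℚ K = 1 := by
  by_contra hne
  have h1 : 1 < Module.finrank ℚ K := by
    have : 0 < Module.finrank ℚ K := Module.finrank_pos
    omega
  have h2 := NumberField.abs_discr_gt_two h1
  have h3 := NumberField.absNorm_differentIdeal K (𝓞 K)
  have h4 : differentIdeal ℤ (𝓞 K) ≠ ⊤ := by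
    intro htop
    rw [htop, Ideal.absNorm_top] at h3
    have : |discr K| = 1 := by
      rw [Int.abs_eq_natAbs, ← h3]; rfl
    omega
  obtain ⟨P, hPmax, hPle⟩ := Ideal.exists_le_maximal _ h4
  have hPprime : P.IsPrime := hPmax.isPrime
  have hPbot : P ≠ ⊥ := by
    rintro rfl
    exact differentIdeal_ne_bot (A := ℤ) (B := 𝓞 K) (le_bot_iff.mp hPle)
  have hdvd : P ∣ differentIdeal ℤ (𝓞 K) := Ideal.dvd_iff_le.mpr hPle
  rw [dvd_differentIdeal_iff] at hdvd
  apply hdvd
  rw [← Ideal.ramificationIdx_eq_one_iff,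
    ← Ideal.ramificationIdxIn_eq_ramificationIdx (P.under ℤ) P Gal(K/ℚ),
    ← Ideal.card_inertia_eq_ramificationIdxIn (G := Gal(K/ℚ)) (P.under ℤ) P]
  rw [Nat.card_eq_one_iff_unique]
  refine ⟨⟨fun a b => Subtype.ext ?_⟩, ⟨1⟩⟩
  rw [h P hPbot a a.2, h P hPbot b b.2]

/-! ### inertia of a valuation subring in terms of its centre -/

theorem mem_inertiaSubgroupIn_of_center {q : ℕ} (hq : q.Prime) (A : ValuationSubring Qb)
    (hA : A.LiesOverPrime q) {σ : GQ} (hσ : σ ∈ MulAction.stabilizer GQ (center A))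
    (htriv : ∀ x : 𝓞 Qb, σ • x - x ∈ center A) : σ ∈ A.inertiaSubgroupIn ℚ := by
  have hdec := mem_decompositionSubgroup_of_mem_stabilizer hq A hA hσ
  refine ⟨⟨σ, hdec⟩, ?_, rfl⟩
  show (⟨σ, hdec⟩ : A.decompositionSubgroup ℚ) ∈ A.inertiaSubgroup ℚ
  rw [ValuationSubring.inertiaSubgroup, MonoidHom.mem_ker]
  ext x
  show (⟨σ, hdec⟩ : A.decompositionSubgroup ℚ) • x = x
  obtain ⟨a, rfl⟩ := IsLocalRing.residue_surjective x
  rw [← IsLocalRing.ResidueField.residue_smul]
  obtain ⟨b, s, hbs, hs⟩ := exists_mul_eq_of_mem' hq A hA (isAlgebraic_int (a : Qb)) a.2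
  have key : ∀ y : 𝓞 Qb,
      IsLocalRing.residue A ((⟨σ, hdec⟩ : A.decompositionSubgroup ℚ) • incl A y) =
      IsLocalRing.residue A (incl A y) := by
    intro y
    rw [← sub_eq_zero, ← map_sub, IsLocalRing.residue_eq_zero_iff,
      ← ValuationSubring.coe_mem_nonunits_iff]
    exact (mem_center_iff A _).mp (htriv y)
  have hmul : incl A s * a = incl A b := Subtype.ext hbs
  have hs0 : IsLocalRing.residue A (incl A s) ≠ 0 := by
    rw [Ne, IsLocalRing.residue_eq_zero_iff, ← ValuationSubring.coe_mem_nonunits_iff]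
    exact hs
  have h1 : IsLocalRing.residue A ((⟨σ, hdec⟩ : A.decompositionSubgroup ℚ) • incl A s) *
      IsLocalRing.residue A ((⟨σ, hdec⟩ : A.decompositionSubgroup ℚ) • a) =
      IsLocalRing.residue A ((⟨σ, hdec⟩ : A.decompositionSubgroup ℚ) • incl A b) := by
    rw [← map_mul, ← smul_mul', hmul]
  rw [key, key, ← hmul, map_mul] at h1
  exact mul_left_cancel₀ hs0 h1

/-- every maximal ideal of `𝓞 ℚ̄` is the centre of a valuation subring -/
theorem exists_center_eq (Q : Ideal (𝓞 Qb)) (hQ : Q.IsMaximal) :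
    ∃ A : ValuationSubring Qb, center A = Q := by
  let R : Subring Qb := (integralClosure ℤ Qb).toSubring
  let I : Ideal R := Q
  obtain ⟨B, -, hB⟩ := Ideal.image_subset_nonunits_valuationSubring I hQ.ne_top
  refine ⟨B, (hQ.eq_of_le (center_isPrime B).ne_top ?_).symm⟩
  intro x hx
  rw [mem_center_iff]
  exact hB ⟨x, hx, rfl⟩

/-- a nonzero prime ideal of the ring of integers of a number field contains a prime number -/
theorem exists_prime_natCast_mem {K : Type*} [Field K] [NumberField K] (P : Ideal (𝓞 K))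
    [P.IsPrime] (hP : P ≠ ⊥) : ∃ q : ℕ, q.Prime ∧ (q : 𝓞 K) ∈ P := by
  have hp : P.under ℤ ≠ ⊥ := Ideal.IsIntegral.comap_ne_bot ℤ hP
  have hprime : (P.under ℤ).IsPrime := inferInstance
  have hgen := Submodule.IsPrincipal.prime_generator_of_isPrime (P.under ℤ) hp
  refine ⟨(Submodule.IsPrincipal.generator (P.under ℤ)).natAbs,
    Int.prime_iff_natAbs_prime.mp hgen, ?_⟩
  have h1 : (((Submodule.IsPrincipal.generator (P.under ℤ)).natAbs : ℕ) : ℤ) ∈ P.under ℤ := by
    rw [Submodule.IsPrincipal.mem_iff_generator_dvd]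
    exact Int.dvd_natAbs_self
  have h2 := Ideal.mem_comap.mp h1
  simpa using h2

/-! ### Step B : lifting inertia -/

section lift
variable (K : IntermediateField ℚ Qb) [FiniteDimensional ℚ K]

instance instNumberFieldInter : NumberField K where
  to_charZero := inferInstance
  to_finiteDimensional := inferInstance

instance instIsGaloisGroupInter : IsGaloisGroup (Qb ≃ₐ[K] Qb) (𝓞 K) (𝓞 Qb) :=
  IsGaloisGroup.of_isFractionRing _ (𝓞 K) (𝓞 Qb) K Qb

theorem restrictScalars_smul_ideal (g : Qb ≃ₐ[K] Qb) (Q : Ideal (𝓞 Qb)) :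
    (g.restrictScalars ℚ) • Q = g • Q := by
  ext x
  rw [Ideal.mem_pointwise_smul_iff_inv_smul_mem, Ideal.mem_pointwise_smul_iff_inv_smul_mem]
  rfl

theorem algebraMap_smul_restrict [IsGalois ℚ K] (σ : GQ) (x : 𝓞 K) :
    algebraMap (𝓞 K) (𝓞 Qb) (AlgEquiv.restrictNormalHom K σ • x) = σ • algebraMap (𝓞 K) (𝓞 Qb) x := by
  apply RingOfIntegers.ext
  exact AlgEquiv.restrictNormal_commutes σ K (x : K)

theorem restrictNormalHom_restrictScalars [IsGalois ℚ K] (g : Qb ≃ₐ[K] Qb) :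
    AlgEquiv.restrictNormalHom K (g.restrictScalars ℚ) = 1 := by
  ext x
  have := AlgEquiv.restrictNormal_commutes (g.restrictScalars ℚ) K x
  exact this.trans (g.commutes x)

theorem exists_inertia_lift [IsGalois ℚ K] (P : Ideal (𝓞 K)) [P.IsPrime] (hP : P ≠ ⊥)
    (τ : K ≃ₐ[ℚ] K) (hτ : τ ∈ P.inertia (K ≃ₐ[ℚ] K)) :
    ∃ (q : ℕ) (_ : q.Prime) (A : ValuationSubring Qb) (_ : A.LiesOverPrime q) (σ : GQ),
      σ ∈ A.inertiaSubgroupIn ℚ ∧ AlgEquiv.restrictNormalHom K σ = τ := by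
  obtain ⟨q, hq, hqP⟩ := exists_prime_natCast_mem P hP
  haveI hPmax : P.IsMaximal := Ideal.IsPrime.isMaximal inferInstance hP
  obtain ⟨Q, hQmax, hQP⟩ := Ideal.exists_maximal_ideal_liesOver_of_isIntegral (S := 𝓞 Qb) P
  obtain ⟨A, hAQ⟩ := exists_center_eq Q hQmax
  have hmemQ : ∀ x : 𝓞 K, x ∈ P ↔ algebraMap (𝓞 K) (𝓞 Qb) x ∈ Q := by
    intro x
    rw [hQP.over]
    rfl
  have hA : A.LiesOverPrime q := by
    have h1 := (hmemQ _).mp hqP
    rw [← hAQ, mem_center_iff] at h1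
    show (q : Qb) ∈ A.nonunits
    simpa using h1
  letI : TopologicalSpace (𝓞 Qb) := ⊥
  haveI : DiscreteTopology (𝓞 Qb) := ⟨rfl⟩
  haveI : ContinuousSMul (Qb ≃ₐ[K] Qb) (𝓞 Qb) := by
    rw [continuousSMul_iff_stabilizer_isOpen]
    intro x
    have h := stabilizer_isOpen_of_isIntegral (K := K) (L := Qb) (x : Qb)
    convert h using 1
    ext g
    simp only [SetLike.mem_coe, MulAction.mem_stabilizer_iff]
    constructor
    · intro h; exact congrArg (fun y : 𝓞 Qb => (y : Qb)) h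
    · intro h; exact RingOfIntegers.ext h
  obtain ⟨τ', hτ'⟩ := AlgEquiv.restrictNormalHom_surjective Qb τ
  have hunder : Ideal.under (𝓞 K) (τ' • Q) = Ideal.under (𝓞 K) Q := by
    ext x
    rw [Ideal.under, Ideal.under, Ideal.mem_comap, Ideal.mem_comap,
      Ideal.mem_pointwise_smul_iff_inv_smul_mem, ← algebraMap_smul_restrict, map_inv, hτ',
      ← hmemQ, ← hmemQ]
    have h1 : τ⁻¹ • x - x ∈ P := (inv_mem hτ) x
    constructor
    · intro h
      have := P.sub_mem h h1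
      simpa using this
    · intro h
      have := P.add_mem h1 h
      simpa using this
  obtain ⟨g, hg⟩ := Algebra.IsInvariant.exists_smul_of_under_eq_of_profinite (A := 𝓞 K)
    (G := Qb ≃ₐ[K] Qb) (τ' • Q) Q hunder
  set σ₁ : GQ := g.restrictScalars ℚ * τ' with hσ₁def
  have hσ₁ : σ₁ • Q = Q := by
    rw [hσ₁def, mul_smul, restrictScalars_smul_ideal, ← hg]
  have hσ₁K : AlgEquiv.restrictNormalHom K σ₁ = τ := by
    rw [hσ₁def, map_mul, restrictNormalHom_restrictScalars, one_mul, hτ']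
  let l₀ := Ideal.Quotient.stabilizerHom Q (Q.under ℤ) GQ ⟨σ₁, hσ₁⟩
  have hl₀ : ∀ y : 𝓞 Qb, l₀ (Ideal.Quotient.mk Q y) = Ideal.Quotient.mk Q (σ₁ • y) := fun y => rfl
  let l : (𝓞 Qb ⧸ Q) ≃ₐ[𝓞 K ⧸ P] (𝓞 Qb ⧸ Q) := AlgEquiv.ofRingEquiv (f := l₀.toRingEquiv) (by
    intro r
    obtain ⟨x, rfl⟩ := Ideal.Quotient.mk_surjective r
    show l₀ (Ideal.Quotient.mk Q (algebraMap (𝓞 K) (𝓞 Qb) x))
      = Ideal.Quotient.mk Q (algebraMap (𝓞 K) (𝓞 Qb) x)
    rw [hl₀, ← algebraMap_smul_restrict, hσ₁K, Ideal.Quotient.eq, ← map_sub, ← hmemQ]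
    exact hτ x)
  obtain ⟨ρ, hρ⟩ := Ideal.Quotient.stabilizerHom_surjective_of_profinite
    (G := Qb ≃ₐ[K] Qb) P Q l
  have hkey : ∀ y : 𝓞 Qb, σ₁ • y - (ρ.1.restrictScalars ℚ) • y ∈ Q := by
    intro y
    have h1 := DFunLike.congr_fun hρ (Ideal.Quotient.mk Q y)
    rw [Ideal.Quotient.stabilizerHom_apply] at h1
    rw [← Ideal.Quotient.eq]
    exact h1.symm
  have hρQ : (ρ.1.restrictScalars ℚ) • Q = Q := by
    rw [restrictScalars_smul_ideal]
    exact ρ.2
  refine ⟨q, hq, A, hA, (ρ.1.restrictScalars ℚ)⁻¹ * σ₁, ?_, ?_⟩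
  · apply mem_inertiaSubgroupIn_of_center hq A hA
    · rw [hAQ, MulAction.mem_stabilizer_iff, mul_smul, hσ₁, inv_smul_eq_iff, hρQ]
    · intro x
      rw [hAQ]
      have h2 : ((ρ.1.restrictScalars ℚ)⁻¹ * σ₁) • x - x
          = (ρ.1.restrictScalars ℚ)⁻¹ • (σ₁ • x - (ρ.1.restrictScalars ℚ) • x) := by
        rw [smul_sub, inv_smul_smul, mul_smul]
      rw [h2, ← Ideal.mem_pointwise_smul_iff_inv_smul_mem, hρQ]
      exact hkey x
  · rw [map_mul, map_inv, restrictNormalHom_restrictScalars, hσ₁K]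
    simp

end lift

/-! ### the main theorem -/

/-- **Minkowski glue.** A normal open subgroup of `Gal(ℚ̄/ℚ)` containing all the inertia groups
is the whole group. -/
theorem eq_top_of_inertia_le (H : Subgroup GQ) (hN : H.Normal)
    (hopen : ∃ L : IntermediateField ℚ Qb, FiniteDimensional ℚ L ∧ L.fixingSubgroup ≤ H)
    (hI : ∀ q : ℕ, q.Prime → ∀ A : ValuationSubring Qb, A.LiesOverPrime q →
      A.inertiaSubgroupIn ℚ ≤ H) : H = ⊤ := by
  obtain ⟨L, hLfin, hLH⟩ := hopen
  have hHopen : IsOpen (H : Set GQ) :=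
    Subgroup.isOpen_mono hLH (IntermediateField.fixingSubgroup_isOpen L)
  have hHclosed : IsClosed (H : Set GQ) := H.isClosed_of_isOpen hHopen
  set K : IntermediateField ℚ Qb := IntermediateField.fixedField H with hK
  have hKH : K.fixingSubgroup = H :=
    InfiniteGalois.fixingSubgroup_fixedField (⟨H, hHclosed⟩ : ClosedSubgroup GQ)
  have hKL : K ≤ L := by
    have := IntermediateField.fixedField_antitone hLH
    rwa [InfiniteGalois.fixedField_fixingSubgroup] at this
  haveI : FiniteDimensional ℚ K :=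
    Module.Finite.of_injective (IntermediateField.inclusion hKL).toLinearMap
      (IntermediateField.inclusion_injective hKL)
  haveI : IsGalois ℚ K := (InfiniteGalois.normal_iff_isGalois K).mp (by rw [hKH]; exact hN)
  have h1 : Module.finrank ℚ K = 1 := by
    apply finrank_eq_one_of_inertia_trivial
    intro P _ hP τ hτ
    obtain ⟨q, hq, A, hA, σ, hσ, rfl⟩ := exists_inertia_lift K P hP τ hτ
    have hσH : σ ∈ K.fixingSubgroup := by
      rw [hKH]
      exact hI q hq A hA hσ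
    ext x
    have h2 := AlgEquiv.restrictNormal_commutes σ K x
    exact h2.trans ((IntermediateField.mem_fixingSubgroup_iff K σ).mp hσH x x.2)
  rw [IntermediateField.finrank_eq_one_iff] at h1
  rw [← hKH, h1, IntermediateField.fixingSubgroup_bot]

end Fermat.Agent.Lib
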