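import Mathlib

set_option autoImplicit false

/-!
# Adic completeness of multivariate power series rings over complete Noetherian local rings
-/

namespace Fermat.Agent.Lib.MvPSComplete

open IsLocalRing

section Sup

variable {R : Type*} [CommRing R]

/-- If `R` is precomplete for `I` and for `J`, it is precomplete for `I ⊔ J`. -/
theorem isPrecomplete_sup (I J : Ideal R) [IsPrecomplete I R] [IsPrecomplete J R] :
    IsPrecomplete (I ⊔ J) R := by
  refine ⟨fun f hf => ?_⟩
  have hf' : ∀ {m n : ℕ}, m ≤ n → f n - f m ∈ (I ⊔ J) ^ m := by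
    intro m n hmn
    have := (hf hmn).symm
    rw [SModEq.sub_mem] at this
    simpa using this
  have hstep : ∀ n : ℕ, ∃ a ∈ I ^ n, ∃ b ∈ J ^ n, a + b = f (2 * (n + 1)) - f (2 * n) := by
    intro n
    have h1 : f (2 * (n + 1)) - f (2 * n) ∈ (I ⊔ J) ^ (n + n) := by
      have := hf' (m := 2 * n) (n := 2 * (n + 1)) (by omega)
      rwa [show (I ⊔ J) ^ (2 * n) = (I ⊔ J) ^ (n + n) by rw [two_mul]] at this
    exact Submodule.mem_sup.mp (Ideal.sup_pow_add_le_pow_sup_pow h1)
  choose a ha b hb hab using hstep
  let A : ℕ → R := fun n => ∑ k ∈ Finset.range n, a k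
  let B : ℕ → R := fun n => ∑ k ∈ Finset.range n, b k
  have hA : ∀ {m n : ℕ}, m ≤ n → A m ≡ A n [SMOD (I ^ m • ⊤ : Submodule R R)] := by
    intro m n hmn
    rw [SModEq.comm, SModEq.sub_mem]
    simp only [smul_eq_mul, Ideal.mul_top, A]
    rw [← Finset.sum_sdiff (Finset.range_subset_range.mpr hmn), add_sub_cancel_right]
    refine Ideal.sum_mem _ fun k hk => ?_
    have hk' : m ≤ k := by
      simp only [Finset.mem_sdiff, Finset.mem_range, not_lt] at hk
      exact hk.2
    exact Ideal.pow_le_pow_right hk' (ha k)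
  have hB : ∀ {m n : ℕ}, m ≤ n → B m ≡ B n [SMOD (J ^ m • ⊤ : Submodule R R)] := by
    intro m n hmn
    rw [SModEq.comm, SModEq.sub_mem]
    simp only [smul_eq_mul, Ideal.mul_top, B]
    rw [← Finset.sum_sdiff (Finset.range_subset_range.mpr hmn), add_sub_cancel_right]
    refine Ideal.sum_mem _ fun k hk => ?_
    have hk' : m ≤ k := by
      simp only [Finset.mem_sdiff, Finset.mem_range, not_lt] at hk
      exact hk.2
    exact Ideal.pow_le_pow_right hk' (hb k)
  obtain ⟨α, hα⟩ := IsPrecomplete.prec ‹IsPrecomplete I R› hA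
  obtain ⟨β, hβ⟩ := IsPrecomplete.prec ‹IsPrecomplete J R› hB
  have htel : ∀ n, f (2 * n) = f 0 + A n + B n := by
    intro n
    induction n with
    | zero => simp [A, B]
    | succ n ih =>
      have := hab n
      simp only [A, B, Finset.sum_range_succ] at ih ⊢
      linear_combination ih - this
  refine ⟨f 0 + α + β, fun n => ?_⟩
  rw [SModEq.sub_mem]
  simp only [smul_eq_mul, Ideal.mul_top]
  have h1 : f (2 * n) - f n ∈ (I ⊔ J) ^ n := hf' (by omega)
  have h2 : A n - α ∈ (I ⊔ J) ^ n := by
    have := hα n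
    rw [SModEq.sub_mem] at this
    simp only [smul_eq_mul, Ideal.mul_top] at this
    exact Ideal.pow_right_mono le_sup_left n this
  have h3 : B n - β ∈ (I ⊔ J) ^ n := by
    have := hβ n
    rw [SModEq.sub_mem] at this
    simp only [smul_eq_mul, Ideal.mul_top] at this
    exact Ideal.pow_right_mono le_sup_right n this
  have : f n - (f 0 + α + β) = -(f (2 * n) - f n) + (A n - α) + (B n - β) := by
    rw [htel n]; ring
  rw [this]
  exact add_mem (add_mem (neg_mem h1) h2) h3

end Sup

section Coeff

open MvPowerSeries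

variable {σ : Type*} {R : Type*} [CommRing R]

/-- The power series with prescribed coefficients. -/
def ofFun (c : (σ →₀ ℕ) → R) : MvPowerSeries σ R := c

@[simp] theorem coeff_ofFun (c : (σ →₀ ℕ) → R) (e : σ →₀ ℕ) : coeff e (ofFun c) = c e := rfl

/-- Coefficients of an element of the extension of an ideal lie in the ideal. -/
theorem coeff_mem_of_mem_map_C (𝔞 : Ideal R) {g : MvPowerSeries σ R}
    (hg : g ∈ 𝔞.map (C : R →+* MvPowerSeries σ R)) (e : σ →₀ ℕ) : coeff e g ∈ 𝔞 := by
  classical
  let K : Ideal (MvPowerSeries σ R) :=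
    { carrier := {g | ∀ e, coeff e g ∈ 𝔞}
      add_mem' := fun {x y} hx hy e => by rw [map_add]; exact add_mem (hx e) (hy e)
      zero_mem' := fun e => by simp
      smul_mem' := fun c x hx e => by
        rw [smul_eq_mul, coeff_mul]
        exact Ideal.sum_mem _ fun uv _ => Ideal.mul_mem_left _ _ (hx _) }
  have hle : 𝔞.map (C : R →+* MvPowerSeries σ R) ≤ K := by
    rw [Ideal.map_le_iff_le_comap]
    intro y hy e
    rw [coeff_C]
    split_ifs
    · exact hy
    · exact zero_mem _
  exact hle hg e

/-- A power series with coefficients in a finitely generated ideal lies in its extension. -/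
theorem mem_map_C_of_coeff_mem {𝔞 : Ideal R} (h𝔞 : 𝔞.FG) {g : MvPowerSeries σ R}
    (hg : ∀ e, coeff e g ∈ 𝔞) : g ∈ 𝔞.map (C : R →+* MvPowerSeries σ R) := by
  classical
  obtain ⟨s, rfl⟩ := h𝔞
  have h1 : ∀ e, ∃ c : R → R, ∑ y ∈ s, c y • y = coeff e g := by
    intro e
    obtain ⟨c, -, hc⟩ := Submodule.mem_span_finset.mp (hg e)
    exact ⟨c, hc⟩
  choose c hc using h1
  have hsum : g = ∑ y ∈ s, C y * ofFun (fun e => c e y) := by
    ext e
    rw [map_sum, ← hc e]
    refine Finset.sum_congr rfl fun y _ => ?_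
    rw [coeff_C_mul, smul_eq_mul, mul_comm, coeff_ofFun]
  rw [hsum]
  refine Ideal.sum_mem _ fun y hy => Ideal.mul_mem_right _ _ ?_
  exact Ideal.mem_map_of_mem _ (Ideal.subset_span hy)

/-- Coefficientwise completeness. -/
theorem isPrecomplete_map_C [IsNoetherianRing R] (𝔞 : Ideal R) [IsPrecomplete 𝔞 R] :
    IsPrecomplete (𝔞.map (C : R →+* MvPowerSeries σ R)) (MvPowerSeries σ R) := by
  refine ⟨fun f hf => ?_⟩
  have hf' : ∀ {m n : ℕ}, m ≤ n → ∀ e, coeff e (f m) ≡ coeff e (f n)
      [SMOD (𝔞 ^ m • ⊤ : Submodule R R)] := by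
    intro m n hmn e
    have := hf hmn
    rw [SModEq.sub_mem] at this ⊢
    simp only [smul_eq_mul, Ideal.mul_top, ← Ideal.map_pow] at this ⊢
    rw [← map_sub]
    exact coeff_mem_of_mem_map_C _ this e
  have hlim : ∀ e, ∃ L : R, ∀ n, coeff e (f n) ≡ L [SMOD (𝔞 ^ n • ⊤ : Submodule R R)] :=
    fun e => IsPrecomplete.prec ‹IsPrecomplete 𝔞 R› (f := fun n => coeff e (f n))
      (fun hmn => hf' hmn e)
  choose L hL using hlim
  refine ⟨ofFun L, fun n => ?_⟩
  rw [SModEq.sub_mem]
  simp only [smul_eq_mul, Ideal.mul_top, ← Ideal.map_pow]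
  refine mem_map_C_of_coeff_mem (IsNoetherian.noetherian _) fun e => ?_
  have := hL e n
  rw [SModEq.sub_mem] at this
  simp only [smul_eq_mul, Ideal.mul_top] at this
  rw [map_sub, coeff_ofFun]
  exact this

/-- A power series in finitely many variables without constant term lies in the ideal generated
by the variables. -/
theorem mem_span_range_X_of_constantCoeff_eq_zero [Finite σ] {g : MvPowerSeries σ R}
    (hg : constantCoeff g = 0) : g ∈ Ideal.span (Set.range (X : σ → MvPowerSeries σ R)) := by
  classical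
  cases nonempty_fintype σ
  have hidx : ∀ e : σ →₀ ℕ, ∃ i : Option σ, (e = 0 ∧ i = none) ∨ ∃ j, i = some j ∧ e j ≠ 0 := by
    intro e
    by_cases he : e = 0
    · exact ⟨none, Or.inl ⟨he, rfl⟩⟩
    · obtain ⟨j, hj⟩ := Finsupp.ne_iff.mp he
      exact ⟨some j, Or.inr ⟨j, rfl, by simpa using hj⟩⟩
  choose idx hidx using hidx
  let G : σ → MvPowerSeries σ R := fun i => ofFun fun e =>
    if idx (e + Finsupp.single i 1) = some i then coeff (e + Finsupp.single i 1) g else 0
  have hsum : g = ∑ i, X i * G i := by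
    ext e
    rw [map_sum]
    have hterm : ∀ i, coeff e (X i * G i) = if idx e = some i then coeff e g else 0 := by
      intro i
      rw [X, coeff_monomial_mul, one_mul]
      by_cases hle : Finsupp.single i 1 ≤ e
      · rw [if_pos hle, coeff_ofFun, tsub_add_cancel_of_le hle]
      · rw [if_neg hle]
        split_ifs with hi
        · exfalso
          rcases hidx e with ⟨-, h2⟩ | ⟨j, h1, h2⟩
          · rw [hi] at h2; exact Option.some_ne_none _ h2
          · rw [hi] at h1
            have hij : i = j := Option.some.inj h1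
            subst hij
            apply hle
            rw [Finsupp.single_le_iff]
            exact Nat.one_le_iff_ne_zero.mpr h2
        · rfl
    simp only [hterm]
    rcases hidx e with ⟨h1, h2⟩ | ⟨j, h1, -⟩
    · subst h1
      simp only [h2, reduceCtorEq, if_false, Finset.sum_const_zero]
      exact hg
    · simp only [h1, Option.some.injEq]
      rw [Finset.sum_ite_eq]
      simp
  rw [hsum]
  exact Ideal.sum_mem _ fun i _ => Ideal.mul_mem_right _ _ (Ideal.subset_span ⟨i, rfl⟩)

theorem maximalIdeal_eq [Finite σ] [IsLocalRing R] :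
    maximalIdeal (MvPowerSeries σ R) =
      (maximalIdeal R).map (C : R →+* MvPowerSeries σ R) ⊔
        Ideal.span (Set.range (X : σ → MvPowerSeries σ R)) := by
  apply le_antisymm
  · intro g hg
    have hg0 : constantCoeff g ∈ maximalIdeal R := by
      rw [mem_maximalIdeal, mem_nonunits_iff] at hg ⊢
      intro h
      exact hg (MvPowerSeries.isUnit_iff_constantCoeff.mpr h)
    have : g = C (constantCoeff g) + (g - C (constantCoeff g)) := by ring
    rw [this]
    refine Submodule.add_mem_sup (Ideal.mem_map_of_mem _ hg0)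
      (mem_span_range_X_of_constantCoeff_eq_zero ?_)
    simp
  · refine sup_le ?_ ?_
    · rw [Ideal.map_le_iff_le_comap]
      intro y hy
      rw [Ideal.mem_comap, mem_maximalIdeal, mem_nonunits_iff,
        MvPowerSeries.isUnit_iff_constantCoeff]
      simpa using hy
    · rw [Ideal.span_le]
      rintro _ ⟨i, rfl⟩
      rw [SetLike.mem_coe, mem_maximalIdeal, mem_nonunits_iff,
        MvPowerSeries.isUnit_iff_constantCoeff]
      simp

/-- **P1**: the power series ring in finitely many variables over a complete Noetherian local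
ring is complete for its maximal ideal. -/
theorem isAdicComplete_maximalIdeal [Finite σ] [IsLocalRing R] [IsNoetherianRing R]
    [IsAdicComplete (maximalIdeal R) R] :
    IsAdicComplete (maximalIdeal (MvPowerSeries σ R)) (MvPowerSeries σ R) := by
  have h1 : IsPrecomplete ((maximalIdeal R).map (C : R →+* MvPowerSeries σ R))
      (MvPowerSeries σ R) := isPrecomplete_map_C _
  have h2 : IsPrecomplete (Ideal.span (Set.range (X : σ → MvPowerSeries σ R)))
      (MvPowerSeries σ R) := inferInstance
  have h3 : IsPrecomplete (maximalIdeal (MvPowerSeries σ R)) (MvPowerSeries σ R) := by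
    rw [maximalIdeal_eq]
    exact isPrecomplete_sup _ _
  exact { toIsHausdorff := inferInstance, toIsPrecomplete := h3 }

end Coeff

end Fermat.Agent.Lib.MvPSComplete
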