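import Mathlib

/-!
# Power series rings over complete Noetherian local rings are complete

`IsAdicComplete (maximalIdeal (MvPowerSeries (Fin d) A)) (MvPowerSeries (Fin d) A)` for a
Noetherian local ring `A` which is complete for its maximal ideal.
-/

set_option autoImplicit false

open IsLocalRing

namespace Fermat.Agent.Lib.MvPowerSeriesComplete

section Transfer

variable {R S : Type*} [CommRing R] [CommRing S] [IsLocalRing R] [IsLocalRing S]

theorem map_mem_maximalIdeal_pow (φ : R →+* S) [IsLocalHom φ] {x : R} {k : ℕ}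
    (hx : x ∈ maximalIdeal R ^ k) : φ x ∈ maximalIdeal S ^ k := by
  have h1 : (maximalIdeal R).map φ ≤ maximalIdeal S :=
    ((local_hom_TFAE φ).out 0 2).mp ‹IsLocalHom φ›
  have h2 : (maximalIdeal R ^ k).map φ ≤ maximalIdeal S ^ k := by
    rw [Ideal.map_pow]
    exact Ideal.pow_right_mono h1 k
  exact h2 (Ideal.mem_map_of_mem φ hx)

theorem isPrecomplete_of_ringEquiv (e : R ≃+* S) [IsPrecomplete (maximalIdeal R) R] :
    IsPrecomplete (maximalIdeal S) S := by
  constructor
  intro f hf
  have hf' : ∀ {m n : ℕ}, m ≤ n →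
      e.symm (f m) ≡ e.symm (f n) [SMOD (maximalIdeal R ^ m • ⊤ : Submodule R R)] := by
    intro m n hmn
    have := hf hmn
    rw [SModEq.sub_mem, smul_eq_mul, Ideal.mul_top] at this ⊢
    rw [← map_sub]
    exact map_mem_maximalIdeal_pow (e.symm : S →+* R) this
  obtain ⟨L, hL⟩ := IsPrecomplete.prec' (I := maximalIdeal R) (fun n => e.symm (f n)) hf'
  refine ⟨e L, fun n => ?_⟩
  have := hL n
  rw [SModEq.sub_mem, smul_eq_mul, Ideal.mul_top] at this ⊢
  have h2 := map_mem_maximalIdeal_pow (e : R →+* S) this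
  simpa using h2

end Transfer

section PowerSeries

open PowerSeries

variable {A : Type*} [CommRing A] [IsLocalRing A]

theorem mem_maximalIdeal_powerSeries_iff (f : A⟦X⟧) :
    f ∈ maximalIdeal A⟦X⟧ ↔ constantCoeff f ∈ maximalIdeal A := by
  rw [mem_maximalIdeal, mem_maximalIdeal, mem_nonunits_iff, mem_nonunits_iff,
    PowerSeries.isUnit_iff_constantCoeff]

theorem X_mem_maximalIdeal : (X : A⟦X⟧) ∈ maximalIdeal A⟦X⟧ := by
  rw [mem_maximalIdeal_powerSeries_iff]
  simp

theorem C_mem_maximalIdeal_pow {a : A} {k : ℕ} (ha : a ∈ maximalIdeal A ^ k) :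
    (C a : A⟦X⟧) ∈ maximalIdeal A⟦X⟧ ^ k := by
  have h1 : (maximalIdeal A).map (C : A →+* A⟦X⟧) ≤ maximalIdeal A⟦X⟧ := by
    rw [Ideal.map_le_iff_le_comap]
    intro x hx
    rw [Ideal.mem_comap, mem_maximalIdeal_powerSeries_iff]
    simpa using hx
  have h2 : (maximalIdeal A ^ k).map (C : A →+* A⟦X⟧) ≤ maximalIdeal A⟦X⟧ ^ k := by
    rw [Ideal.map_pow]
    exact Ideal.pow_right_mono h1 k
  exact h2 (Ideal.mem_map_of_mem _ ha)

theorem coeff_mem_of_mem_pow {n : ℕ} {g : A⟦X⟧} (hg : g ∈ maximalIdeal A⟦X⟧ ^ n) (j : ℕ) :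
    coeff j g ∈ maximalIdeal A ^ (n - j) := by
  induction n generalizing g j with
  | zero => simp
  | succ n ih =>
    rw [pow_succ'] at hg
    refine Submodule.mul_induction_on hg ?_ ?_
    · intro a ha b hb
      rw [coeff_mul]
      refine Ideal.sum_mem _ ?_
      rintro ⟨i, k⟩ hik
      rw [Finset.HasAntidiagonal.mem_antidiagonal] at hik
      simp only at hik ⊢
      rcases Nat.eq_zero_or_pos i with hi | hi
      · subst hi
        have hk : k = j := by omega
        subst hk
        have h1 : coeff 0 a ∈ maximalIdeal A := by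
          rw [coeff_zero_eq_constantCoeff_apply]
          exact (mem_maximalIdeal_powerSeries_iff a).mp ha
        have h2 := ih hb k
        have h3 : coeff 0 a * coeff k b ∈ maximalIdeal A ^ (1 + (n - k)) := by
          rw [pow_add, pow_one]
          exact Ideal.mul_mem_mul h1 h2
        exact Ideal.pow_le_pow_right (by omega) h3
      · have h2 := ih hb k
        exact Ideal.mul_mem_left _ _ (Ideal.pow_le_pow_right (by omega) h2)
    · intro x y hx hy
      rw [map_add]
      exact Ideal.add_mem _ hx hy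

theorem mem_pow_of_coeff_mem {n : ℕ} {g : A⟦X⟧}
    (hg : ∀ j < n, coeff j g ∈ maximalIdeal A ^ (n - j)) : g ∈ maximalIdeal A⟦X⟧ ^ n := by
  have h1 : g - (trunc n g : A⟦X⟧) ∈ maximalIdeal A⟦X⟧ ^ n := by
    have hdvd : (X : A⟦X⟧) ^ n ∣ g - (trunc n g : A⟦X⟧) := by
      rw [X_pow_dvd_iff]
      intro m hm
      rw [map_sub, Polynomial.coeff_coe, coeff_trunc, if_pos hm, sub_self]
    obtain ⟨h, hh⟩ := hdvd
    rw [hh]
    exact Ideal.mul_mem_right _ _ (Ideal.pow_mem_pow X_mem_maximalIdeal n)
  have h2 : (trunc n g : A⟦X⟧) ∈ maximalIdeal A⟦X⟧ ^ n := by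
    have h3 : ∀ k ≤ n, (trunc k g : A⟦X⟧) ∈ maximalIdeal A⟦X⟧ ^ n := by
      intro k
      induction k with
      | zero => intro _; simp
      | succ k ih =>
        intro hk
        rw [trunc_succ, Polynomial.coe_add]
        refine Ideal.add_mem _ (ih (by omega)) ?_
        have h8 : monomial k (coeff k g) = C (coeff k g) * (X : A⟦X⟧) ^ k := by
          ext m
          rw [coeff_C_mul_X_pow, coeff_monomial]
        rw [Polynomial.coe_monomial, h8]
        have h4 := C_mem_maximalIdeal_pow (hg k (by omega))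
        have h5 : (X : A⟦X⟧) ^ k ∈ maximalIdeal A⟦X⟧ ^ k := Ideal.pow_mem_pow X_mem_maximalIdeal k
        have h6 := Ideal.mul_mem_mul h4 h5
        rw [← pow_add] at h6
        have h7 : n - k + k = n := by omega
        rwa [h7] at h6
    exact h3 n le_rfl
  have := Ideal.add_mem _ h1 h2
  simpa using this

theorem isPrecomplete_powerSeries [IsPrecomplete (maximalIdeal A) A] :
    IsPrecomplete (maximalIdeal A⟦X⟧) A⟦X⟧ := by
  constructor
  intro f hf
  have hf' : ∀ {m n : ℕ}, m ≤ n → f m - f n ∈ maximalIdeal A⟦X⟧ ^ m := by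
    intro m n hmn
    have := hf hmn
    rwa [SModEq.sub_mem, smul_eq_mul, Ideal.mul_top] at this
  have hc : ∀ j : ℕ, ∃ c : A, ∀ n, coeff j (f (n + j)) - c ∈ maximalIdeal A ^ n := by
    intro j
    have hcauchy : ∀ {m n : ℕ}, m ≤ n → coeff j (f (m + j)) ≡ coeff j (f (n + j))
        [SMOD (maximalIdeal A ^ m • ⊤ : Submodule A A)] := by
      intro m n hmn
      rw [SModEq.sub_mem, smul_eq_mul, Ideal.mul_top, ← map_sub]
      have := coeff_mem_of_mem_pow (hf' (show m + j ≤ n + j by omega)) j
      rwa [Nat.add_sub_cancel] at this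
    obtain ⟨c, hc⟩ := IsPrecomplete.prec' (I := maximalIdeal A)
      (fun n => coeff j (f (n + j))) hcauchy
    refine ⟨c, fun n => ?_⟩
    have := hc n
    rwa [SModEq.sub_mem, smul_eq_mul, Ideal.mul_top] at this
  choose c hc using hc
  refine ⟨mk c, fun n => ?_⟩
  rw [SModEq.sub_mem, smul_eq_mul, Ideal.mul_top]
  apply mem_pow_of_coeff_mem
  intro j hj
  rw [map_sub, coeff_mk]
  have := hc j (n - j)
  rwa [Nat.sub_add_cancel hj.le] at this

end PowerSeries

section MvPowerSeries

variable (A : Type*) [CommRing A] [IsLocalRing A]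

theorem isPrecomplete_mvPowerSeries_fin [IsPrecomplete (maximalIdeal A) A] (d : ℕ) :
    IsPrecomplete (maximalIdeal (MvPowerSeries (Fin d) A)) (MvPowerSeries (Fin d) A) := by
  induction d with
  | zero =>
    exact isPrecomplete_of_ringEquiv (MvPowerSeries.isEmptyEquiv (Fin 0) A).toRingEquiv.symm
  | succ d ih =>
    have := isPrecomplete_powerSeries (A := MvPowerSeries (Fin d) A)
    exact isPrecomplete_of_ringEquiv (MvPowerSeries.finSuccEquiv A d).toRingEquiv.symm

/-- **P1**: power series rings in finitely many variables over a complete Noetherian local ring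
are complete for their maximal ideal. -/
theorem isAdicComplete_mvPowerSeries_fin [IsNoetherianRing A]
    [IsAdicComplete (maximalIdeal A) A] (d : ℕ) :
    IsAdicComplete (maximalIdeal (MvPowerSeries (Fin d) A)) (MvPowerSeries (Fin d) A) :=
  { toIsHausdorff := inferInstance
    toIsPrecomplete := isPrecomplete_mvPowerSeries_fin A d }

end MvPowerSeries

end Fermat.Agent.Lib.MvPowerSeriesComplete
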