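import Fermat.Agent.Lib.Frobenius
import Fermat.Prelude.Def_FLTPrelim_Ramification

/-!
# Existence of a place of `ℚ̄` above every prime (wrapper)
-/

set_option autoImplicit false

namespace Fermat.Agent.Lib

theorem exists_valuationSubring_liesOver (q : ℕ) (hq : q.Prime) :
    ∃ A : ValuationSubring (AlgebraicClosure ℚ), A.LiesOverPrime q :=
  Frobenius.exists_liesOverPrime hq

end Fermat.Agent.Lib
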