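import Mathlib
import Fermat.Prelude.Thm_ModularForm_sturm_bound_Gamma0
import Fermat.Prelude.Thm_CongruenceSubgroup_one_mem_strictPeriods_Gamma0

set_option autoImplicit false
open UpperHalfPlane
open scoped MatrixGroups

namespace Fermat.Agent.Lib.SturmCusp

/-- View a cusp form as a modular form. -/
noncomputable def toModularForm {Γ : Subgroup (GL (Fin 2) ℝ)} {k : ℤ} (f : CuspForm Γ k) :
    ModularForm Γ k where
  toSlashInvariantForm := f.toSlashInvariantForm
  holo' := f.holo'
  bdd_at_cusps' := fun hc => ModularFormClass.bdd_at_cusps f hc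

/-- A weight `2` cusp form on `Γ₀(N)` vanishes as soon as the index of `Γ₀(N)` is at most `5`. -/
theorem cuspForm_eq_zero_of_index_le (N : ℕ) [NeZero N]
    (hidx : (CongruenceSubgroup.Gamma0 N).index ≤ 5)
    (f : CuspForm (CongruenceSubgroup.Gamma0 N) 2) : f = 0 := by
  have h0 : toModularForm f = 0 := by
    apply ModularForm.sturm_bound_Gamma0 N
    intro n hn
    have hn0 : n = 0 := by
      have h1 : ((2 : ℤ) * ((CongruenceSubgroup.Gamma0 N).index : ℤ)).toNat / 12 = 0 := by
        omega
      omega
    subst hn0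
    exact CuspFormClass.qExpansion_coeff_zero f one_pos
      (CongruenceSubgroup.one_mem_strictPeriods_Gamma0 N)
  ext z
  have h1 : (toModularForm f) z = (0 : ModularForm (CongruenceSubgroup.Gamma0 N) 2) z := by
    rw [h0]
  exact h1

end Fermat.Agent.Lib.SturmCusp
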